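import Fermat.Agent.GD.Global.First
import Fermat.Agent.GD.Global.ClassFormation.Second
import Fermat.Agent.GD.Global.ClassFormation.Units
import Fermat.Agent.GD.Global.ClassFormation.Inv

/-!
# The class formation of the idele classes and its invariant maps
-/

set_option autoImplicit false
set_option linter.unusedSectionVars false
set_option linter.style.haveILetI false

noncomputable section

namespace Fermat.Agent.GD

open Fermat.Agent.Galois (GQ)
open Fermat.Agent.GalRep.Level (cycM cycM_spec)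

local notation "ℚb" => AlgebraicClosure ℚ

/-- The inclusion of idele groups. -/
theorem idele_mono {T T' : Finset Nat.Primes} (h : T ⊆ T') : idele T ≤ idele T' := by
  rintro f ⟨h1, ⟨N, ⟨F, hF, hN, hn⟩, h2⟩, h3⟩
  exact ⟨h1, ⟨N, ⟨F, hF.mono h, hN, hn⟩, h2⟩, h3⟩

variable {p : ℕ} [hp : Fact p.Prime]

theorem smooth_classT (T : Finset Nat.Primes) : (LT T).Smooth (ClassT T) := by
  intro c
  obtain ⟨f, hf⟩ := mkClass_surjective T c.toMul
  obtain ⟨N, hN, h⟩ := smooth_idele T (Additive.ofMul f)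
  refine ⟨N, hN, fun s hs => ?_⟩
  have e : c = toClass T f := congrArg Additive.ofMul hf.symm
  rw [e, smul_toClass]
  exact congrArg (toClassHom T) (h s hs)

section Mu

variable {T : Finset Nat.Primes} (hT : pPrime p ∈ T)

/-- The group fixing the `p`-th roots of unity. -/
def muSub : Subgroup (LT T).G := (exists_cyc_field T hT 0).choose

theorem mem_muSub (g : GQ) : g ∈ muSub hT ↔ cycM (p ^ (0 + 1)) g = 1 :=
  (exists_cyc_field T hT 0).choose_spec.2 g

theorem muSub_index : ¬ p ∣ (muSub hT).index := by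
  let φ : (LT T).G →* (ZMod (p ^ (0 + 1)))ˣ := cycM (p ^ (0 + 1))
  have e : muSub hT = φ.ker := Subgroup.ext fun g => mem_muSub hT g
  rw [e, Subgroup.index_ker]
  intro hd
  have h1 := hd.trans (Subgroup.card_subgroup_dvd_card φ.range)
  rw [Nat.card_eq_fintype_card, ZMod.card_units_eq_totient,
    Nat.totient_prime_pow_succ hp.out, pow_zero, one_mul] at h1
  have := Nat.le_of_dvd (Nat.sub_pos_of_lt hp.out.one_lt) h1
  have := hp.out.one_lt
  omega

theorem fixesMu_of_le {H : Subgroup (LT T).G} (h : H ≤ muSub hT) : FixesMu p H := by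
  intro g hg μ hμ
  haveI : Fact (1 < p ^ (0 + 1)) := ⟨Nat.one_lt_pow (Nat.succ_ne_zero 0) hp.out.one_lt⟩
  rw [cycM_spec (M := p ^ (0 + 1)) g (by rwa [zero_add, pow_one]),
    (mem_muSub hT g).mp (h hg), Units.val_one, ZMod.val_one, pow_one]

end Mu

/-- The cyclotomic formation on the idele classes. -/
def cycFormation (hp2 : p ≠ 2) (T : Finset Nat.Primes) (hT : pPrime p ∈ T) :
    Formation (LT T) (ClassT T) p where
  smooth := smooth_classT T
  mu := muSub hT
  mu_level := (exists_cyc_field T hT 0).choose_spec.1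
  mu_index := muSub_index hT
  chi n g := chiCyc p n g
  chi_add n g h := chiCyc_mul hp2 n g h
  chi_surj n x := by
    obtain ⟨d, -, hd⟩ := exists_decomp_chiCyc hp2 (pPrime p) rfl n x
    exact ⟨d, hd⟩
  chi_cast _ _ h g := chiCyc_cast hp2 h g
  chi_const n := chiCyc_const hp2 T hT n
  recip n := recC hp2 hT n
  recip_cast m n h a := recC_cast hp2 hT m n h a
  recip_norm n K hKo hK y hy hn := recC_norm hp2 hT n K hKo hK y hy hn
  recip_gen H hH h hh n := recC_gen hp2 hT H hH h hh n
  cyc_card H H' hH' hle hμ hn hidx :=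
    second_inequality p hp2 T hT H H' hH' hle hn hidx (fixesMu_of_le hT hμ)
  cyc_h1 H H' hH' hle hμ hn hidx f hfc hf hf0 := by
    obtain ⟨N, hN, hfN⟩ := hfc
    obtain ⟨c, hc⟩ := (first_inequality p T hp2 H H' hH' hle hn hidx (fixesMu_of_le hT hμ)).2
      (second_inequality p hp2 T hT H H' hH' hle hn hidx (fixesMu_of_le hT hμ))
      (fun g : ((LT T).sub H).G => f (g : H).1)
      ⟨⟨_, ⟨N, hN, rfl⟩, fun g s hs => hfN _ _ hs⟩, fun g g' => hf _ g.2 _ g'.2⟩
      (fun g hg => hf0 _ hg)
    exact ⟨c, fun g hg => (congrFun hc ⟨g, hg⟩).symm⟩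

section Compat

variable {T T' : Finset Nat.Primes}

/-- The inclusion of ideles, additively. -/
def inclHom (h : T ⊆ T') : Additive (idele T) →+ Additive (idele T') :=
  MonoidHom.toAdditive (Subgroup.inclusion (idele_mono h))

theorem inclHom_smul (h : T ⊆ T') (g : GQ) (x : Additive (idele T)) :
    inclHom h ((show (LT T).G from g) • x) = (show (LT T').G from g) • inclHom h x := rfl

/-- The unit part of a trivial class, kept at the places of `T' \ T`. -/
def splitFn (T T' : Finset Nat.Primes) (w : IdeleFn) : IdeleFn := fun v g =>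
  match v with
  | none => 1
  | some q => if q ∈ T' ∧ q ∉ T then w (some q) g / w none g else 1

theorem inv_compat (hp2 : p ≠ 2) (hT : pPrime p ∈ T) (h : T ⊆ T')
    (z : GQ × GQ → idele T) (hzc : (LT T).Const₂ z)
    (hz : (fun y => toClass T (z y)) ∈ (LT T).Z2 (ClassT T))
    (hz' : (fun y => toClass T' (Subgroup.inclusion (idele_mono h) (z y))) ∈
      (LT T').Z2 (ClassT T')) :
    (cycFormation hp2 T hT).inv ⟨_, hz⟩ = (cycFormation hp2 T' (h hT)).inv ⟨_, hz'⟩ := by
  classical
  set D := cycFormation hp2 T hT with hD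
  set D' := cycFormation hp2 T' (h hT) with hD'
  obtain ⟨q, hq⟩ := D.exists_val ⟨_, hz⟩
  rw [D.inv_eq_of_val hq]
  refine (D'.inv_eq_of_val ?_).symm
  obtain ⟨m, n, hm, a, e, eq, hq0⟩ := hq
  obtain ⟨f, hf, hfa⟩ := exists_fixed_lift_top a
  obtain ⟨b, hbc, hbe⟩ := e
  let fA : Additive (idele T) := Additive.ofMul f
  let B : (LT T).G → Additive (idele T) := fun x =>
    Additive.ofMul (Function.surjInv (mkClass_surjective T) (b x).toMul)
  have hB : ∀ x, toClassHom T (B x) = b x := fun x =>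
    congrArg Additive.ofMul (Function.surjInv_eq (mkClass_surjective T) (b x).toMul)
  have hBc : (LT T).Const₁ B := by
    obtain ⟨N, hN, hbN⟩ := hbc
    exact ⟨N, hN, fun g s hs => by simp only [B, hbN g s hs]⟩
  let W : (LT T).G × (LT T).G → Additive (idele T) := fun y =>
    m • Additive.ofMul (z y) - beta (D.chi n) fA y - (LT T).d₁ _ B y
  have hW0 : ∀ y, toClassHom T (W y) = 0 := by
    rintro ⟨g₁, g₂⟩
    have h1 := hbe g₁ trivial g₂ trivial
    simp only [W, beta, d₁_apply, map_sub, map_add, map_nsmul]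
    rw [Pi.sub_apply, Pi.smul_apply, d₁_apply] at h1
    rw [show toClassHom T (g₁ • B g₂) = g₁ • toClassHom T (B g₂) from rfl, hB, hB, hB, sub_eq_zero]
    refine Eq.trans ?_ h1
    simp only [beta, ← hfa]
    rfl
  have hker : ∀ y, (W y).toMul ∈ classKer T := fun y => by
    have h1 := (toClass_eq_iff (W y).toMul 1).mp ((hW0 y).trans (map_zero (toClassHom T)).symm)
    rwa [div_one] at h1
  have hWc : (LT T).Const₂ W := by
    obtain ⟨N₁, hN₁, h1⟩ := hzc
    obtain ⟨N₂, hN₂, h2⟩ := D.chi_const n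
    obtain ⟨N₃, hN₃, h3⟩ := hBc.d₁ (smooth_idele T)
    refine ⟨N₁ ⊓ N₂ ⊓ N₃, (LT T).inf _ _ ((LT T).inf _ _ hN₁ hN₂) hN₃, fun g g' s hs s' hs' => ?_⟩
    simp only [W, beta, carry, h1 g g' s hs.1.1 s' hs'.1.1, h2 g s hs.1.2, h2 g' s' hs'.1.2,
      h3 g g' s hs.2 s' hs'.2]
  obtain ⟨N₁, hN₁, hWN⟩ := hWc
  haveI := (LT T).finiteIndex N₁ hN₁
  have hfin : (Set.range W).Finite := by
    haveI : Finite ((LT T).G ⧸ N₁) := Subgroup.finite_quotient_of_finiteIndex
    refine (Set.finite_range fun c : ((LT T).G ⧸ N₁) × ((LT T).G ⧸ N₁) =>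
      W (c.1.out, c.2.out)).subset ?_
    rintro _ ⟨⟨g, g'⟩, rfl⟩
    obtain ⟨s, hs⟩ := QuotientGroup.mk_out_eq_mul N₁ g
    obtain ⟨s', hs'⟩ := QuotientGroup.mk_out_eq_mul N₁ g'
    exact ⟨((g : (LT T).G ⧸ N₁), (g' : (LT T).G ⧸ N₁)), by
      simp only [hs, hs', hWN g g' s s.2 s' s'.2]⟩
  obtain ⟨N₂, hN₂, hWfix⟩ := exists_level_fix (smooth_idele T) hfin
  set N := N₁ ⊓ N₂
  have hN : (LT T).IsLevel N := (LT T).inf _ _ hN₁ hN₂
  -- the unit parts at the new places
  let uFn : (LT T).G × (LT T).G → IdeleFn := fun y => splitFn T T' (W y).toMul.1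
  have hunit : ∀ y q g, uFn y (some q) g ∈ (placeAt q).unitGroup := fun y q g => by
    show ite _ _ _ ∈ _
    split
    · exact (classKer_split (hker y)).2.2.2.2 q g
    · exact one_mem _
  have hWv : ∀ y v (g s : GQ), s ∈ N → (W y).toMul.1 v (g * s) = (W y).toMul.1 v g := fun y v g s hs =>
    apply_mul_of_fixed (congrArg Additive.toMul (hWfix _ ⟨y, rfl⟩ s hs.2)) v g
  have hulev : ∀ y v (g s : GQ), s ∈ N → uFn y v (g * s) = uFn y v g := by
    intro y v g s hs
    rcases v with _ | q
    · rfl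
    · show ite _ _ _ = ite _ _ _
      rw [hWv y (some q) g s hs, hWv y none g s hs]
  have hmem : ∀ y, uFn y ∈ idele T' := fun y => by
    refine ⟨fun v d hd g => ?_, ⟨N, level_mono h hN, fun v g s hs => hulev y v g s hs⟩,
      Set.finite_empty.subset fun q ⟨g, hg⟩ => hg (hunit y q g)⟩
    rcases v with _ | q
    · exact (smul_one d).symm
    · show ite _ _ _ = d • ite _ _ _
      split
      · rw [(classKer_split (hker y)).1 (d * g), (classKer_split (hker y)).1 g, smul_div',
          mul_smul, (W y).toMul.2.1 (some q) d hd g]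
      · exact (smul_one d).symm
  let u : (LT T').G × (LT T').G → idele T' := fun y => ⟨uFn y, hmem y⟩
  have hcls : ∀ y : GQ × GQ, toClassHom T' (inclHom h (W y)) = toClass T' (u y) := fun y => by
    refine (toClass_eq_iff _ (u y)).mpr ?_
    obtain ⟨h1, h2, h3⟩ := classKer_split (hker y)
    rw [classKer, Subgroup.mem_subgroupOf, Subgroup.mem_sup]
    refine ⟨diag ((W y).toMul.1 none 1), ?_, (diag ((W y).toMul.1 none 1))⁻¹ *
      ((W y).toMul.1 / uFn y), ⟨fun g => ?_, fun q hq g => ?_, fun q g => ?_⟩, ?_⟩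
    · obtain ⟨x, ⟨M, hM, hx⟩, e⟩ := h2
      exact ⟨x, ⟨M, level_mono h hM, hx⟩, e⟩
    · show (g • (W y).toMul.1 none 1)⁻¹ * ((W y).toMul.1 none g / 1) = 1
      rw [div_one, ← h1, inv_mul_cancel]
    · show (g • (W y).toMul.1 none 1)⁻¹ * ((W y).toMul.1 (some q) g / ite _ _ _) = 1
      rw [← h1]
      by_cases hqT : q ∈ T
      · rw [if_neg fun h' => h'.2 hqT, div_one, ← div_eq_inv_mul]
        exact h3.2.1 q hqT g
      · rw [if_pos ⟨hq, hqT⟩, div_div_cancel, inv_mul_cancel]
    · show (g • (W y).toMul.1 none 1)⁻¹ * ((W y).toMul.1 (some q) g / uFn y (some q) g) ∈ _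
      rw [← h1, ← mul_div_assoc, ← div_eq_inv_mul]
      exact div_mem (h3.2.2 q g) (hunit y q g)
    · rw [mul_inv_cancel_left]
      rfl
  let aT : fixPts (ClassT T') (⊤ : Subgroup (LT T').G) :=
    ⟨toClassHom T' (inclHom h fA), fun g _ => congrArg (toClassHom T' ∘ inclHom h)
      (congrArg Additive.ofMul (hf g))⟩
  let b' : (LT T').G → ClassT T' := fun x => toClassHom T' (inclHom h (B x))
  have hb' : (LT T').Const₁ b' := by
    obtain ⟨M, hM, hBM⟩ := hBc
    exact ⟨M, level_mono h hM, fun g s hs =>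
      congrArg (toClassHom T' ∘ inclHom h) (hBM g s hs)⟩
  have hexp : ∀ g₁ g₂ : (LT T').G, toClass T' (u (g₁, g₂)) =
      m • toClass T' (Subgroup.inclusion (idele_mono h) (z (g₁, g₂))) -
        beta (L := LT T') (D'.chi n) (aT : ClassT T') (g₁, g₂) -
          (LT T').d₁ _ b' (g₁, g₂) := fun g₁ g₂ => by
    refine (hcls (g₁, g₂)).symm.trans ?_
    simp only [W, beta, d₁_apply, map_sub, map_nsmul]
    rfl
  have hu : Triv2 (⊤ : Subgroup (LT T').G) fun y => toClass T' (u y) := by
    refine triv2_units h u (fun y g => rfl) (fun y q hq g => ?_) hunit hN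
      (fun g g' s s' hs hs' => ?_) (fun y v g s hs => hulev y v g s hs) ?_
    · show ite _ _ _ = _
      exact if_neg fun h' => hq.elim h'.2 fun h'' => h'' h'.1
    · refine Subtype.ext (funext fun v => funext fun x => ?_)
      have hWeq : W (g * s, g' * s') = W (g, g') := hWN g g' s hs.1 s' hs'.1
      exact congrArg (fun w : Additive (idele T) => splitFn T T' w.toMul.1 v x) hWeq
    · intro g hg g' hg' j hj
      have h1 := (mem_Zc_top hz').2 g hg g' hg' j hj
      have h2 := (D'.beta_mem_Zc (top_open (LT T')) (n := n) aT.2).2 g hg g' hg' j hj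
      have h3 := coc2_d₁ (⊤ : Subgroup (LT T').G) b' g hg g' hg' j hj
      refine (congrArg₂ (· + ·) (congrArg (g • ·) (hexp g' j)) (hexp g (g' * j))).trans ?_
      refine Eq.trans ?_ (congrArg₂ (· + ·) (hexp (g * g') j) (hexp g g')).symm
      simp only [smul_sub]
      rw [smul_comm g m, sub_add_sub_comm, sub_add_sub_comm, sub_add_sub_comm, sub_add_sub_comm,
        ← smul_add, ← smul_add]
      exact congrArg₂ (· - ·) (congrArg₂ (· - ·) (congrArg (m • ·) h1) h2) h3
  refine ⟨m, n, hm, aT, ?_, ?_, hq0⟩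
  · refine (hu.add (triv2_d₁ (⊤ : Subgroup (LT T').G) hb')).congr fun g _ g' _ => ?_
    rw [Pi.add_apply]
    refine Eq.trans ?_ (congrArg (· + _) (hexp g g').symm)
    rw [sub_add_cancel]
    rfl
  · rw [eq]
    congr 1
    show recC hp2 hT n a = recC hp2 (h hT) n aT
    rw [recC_eq hp2 hT n a hf hfa, recC_eq hp2 (h hT) n aT
      (f := Subgroup.inclusion (idele_mono h) f)
      (fun g => congrArg (Subgroup.inclusion (idele_mono h)) (hf g)) rfl]
    rfl

end Compat

variable (p)

/-- The invariant maps of the idele class modules, compatible in the set of primes. -/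
structure GlobalInv where
  glob : ∀ T : Finset Nat.Primes, (⟨p, Fact.out⟩ : Nat.Primes) ∈ T →
    ClassModule (LT T) (ClassT T) p
  compat : ∀ (T T' : Finset Nat.Primes) (hT : (⟨p, Fact.out⟩ : Nat.Primes) ∈ T) (h : T ⊆ T')
    (z : GQ × GQ → idele T), (LT T).Const₂ z →
    ∀ (hz : (fun y => toClass T (z y)) ∈ (LT T).Z2 (ClassT T))
    (hz' : (fun y => toClass T' (Subgroup.inclusion (idele_mono h) (z y))) ∈
      (LT T').Z2 (ClassT T')),
    (glob T hT).inv ⟨_, hz⟩ = (glob T' (h hT)).inv ⟨_, hz'⟩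

/-- The invariant maps of the cyclotomic reciprocity law. -/
def globalInv (hp2 : p ≠ 2) : GlobalInv p where
  glob T hT := (cycFormation hp2 T hT).classModule
  compat _ _ hT h z hzc hz hz' := inv_compat hp2 hT h z hzc hz hz'

/-- The invariant maps exist. -/
theorem exists_globalInv (hp2 : p ≠ 2) : Nonempty (GlobalInv p) := ⟨globalInv p hp2⟩

variable {p}

/-- The invariant of the cup product of the cyclotomic character and a fixed idele. -/
theorem globalInv_inv_beta (hp2 : p ≠ 2) (T : Finset Nat.Primes) (hT : pPrime p ∈ T) (n : ℕ)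
    {f : idele T} (hf : ∀ g : (LT T).G, g • f = f)
    (z : (LT T).Z2 (ClassT T))
    (hz : ∀ g g' : GQ, (z : (LT T).G × (LT T).G → ClassT T) (g, g') =
      carry (L := LT T) (chiCyc p n) g g' • toClass T f) :
    ((globalInv p hp2).glob T hT).inv z = circ p n (recFn p n f.1) := by
  let a : fixPts (ClassT T) (⊤ : Subgroup (LT T).G) :=
    ⟨toClass T f, fun g _ => by rw [smul_toClass, hf]⟩
  show (cycFormation hp2 T hT).inv z = _
  refine (cycFormation hp2 T hT).inv_eq_of_val ⟨1, n, Nat.coprime_one_left p, a, ?_, ?_,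
    pow_nsmul_circ n _⟩
  · rw [one_smul]
    exact (Triv2.zero _).congr fun g _ g' _ =>
      sub_eq_zero.mpr (hz g g')
  · rw [one_smul]
    exact congrArg (circ p n) (recC_eq hp2 hT n a hf rfl).symm

/-- The cup product of the cyclotomic character and a fixed idele is a cocycle. -/
theorem beta_chiCyc_mem_Z2 (hp2 : p ≠ 2) (T : Finset Nat.Primes) (hT : pPrime p ∈ T) (n : ℕ)
    {f : idele T} (hf : ∀ g : (LT T).G, g • f = f) :
    (fun y : (LT T).G × (LT T).G => carry (L := LT T) (chiCyc p n) y.1 y.2 • toClass T f) ∈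
      (LT T).Z2 (ClassT T) :=
  have h := (cycFormation hp2 T hT).beta_mem_Zc (top_open (LT T)) (n := n) (a := toClass T f)
    fun g _ => by rw [smul_toClass, hf]
  ⟨h.1, fun g g' j => h.2 g trivial g' trivial j trivial⟩

end Fermat.Agent.GD
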