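import Fermat.Agent.GD.Global.Basic
import Fermat.Agent.GD.Global.First.Theta

/-!
# The first inequality
-/

set_option autoImplicit false
set_option linter.style.haveILetI false
set_option linter.unusedSectionVars false

noncomputable section

namespace Fermat.Agent.GD

open Finset
open Fermat.Agent.Galois (GQ)

local notation "ℚb" => AlgebraicClosure ℚ

variable {p : ℕ} [hp : Fact p.Prime] {T T₂ : Finset Nat.Primes} {H H' : Subgroup GQ} {t : GQ}

theorem mem_sUnits_of {x : ℚbˣ} (hx : ∀ h ∈ H, (h : GQ) • x = x)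
    (hu : ∀ q ∉ T, ∀ g : GQ, g • x ∈ (placeAt q).unitGroup) : x ∈ sUnits T H := ⟨hx, hu⟩

theorem card_locNormQuot (hc : CycP p H H' t) {N : Subgroup GQ} (hN : (LT T).IsLevel N)
    (hle : N ≤ H') (c : NSIdx T₂ H H') :
    Nat.card (fixedUnits (nsLoc T₂ H H' H c) ⧸
      locNorms (nsLoc T₂ H H' H c) (nsLoc T₂ H H' H' c)) = p := by
  haveI := normal_of_level hN
  obtain ⟨e, he⟩ := hc.exists_gen c.2
  have hl := hc.cycP_local he
  exact card_local_norm p c.1.1.1 (nsLoc T₂ H H' H c) (nsLoc T₂ H H' H' c)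
    ⟨_, isLevel_LD_of_LT hN _, subgroupOf_le_locSub hle _ _⟩ hl.le hl.normal hl.index

theorem exists_of_mem_classNorms {H H' : Subgroup (LT T).G} (hH' : (LT T).IsOpen H')
    {c : fixedClasses T H} (hc : c ∈ classNorms T H H') :
    ∃ y ∈ fixPts (ClassT T) H', (c : ClassT T) = nm H H' y := by
  have h0 : nm H H' (0 : ClassT T) = 0 := by simp [nm]
  refine AddSubgroup.closure_induction (fun x hx => hx) ⟨0, zero_mem _, h0.symm⟩
    (fun a b _ _ ⟨y, hy, e⟩ ⟨y', hy', e'⟩ => ⟨y + y', add_mem hy hy', ?_⟩)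
    (fun a _ ⟨y, hy, e⟩ => ⟨-y, neg_mem hy, ?_⟩) hc
  · rw [AddSubgroup.coe_add, e, e', nm_add hH']
  · rw [AddSubgroup.coe_neg, e, eq_comm, eq_neg_iff_add_eq_zero, ← nm_add hH', neg_add_cancel, h0]

/-- A fixed idele whose class is a norm has the residues of a unit away from `T₂`. -/
theorem exists_theta_eq_sUnit (hc : CycP p H H' t) (hT : T ⊆ T₂) {N : Subgroup GQ}
    (hN : (LT T).IsLevel N) (hle : N ≤ H') (hbig : IsBig T₂ N) (f : fixedIdeles T H)
    (hfu : ∀ q ∉ T₂, ∀ g, f.1 (some q) g ∈ (placeAt q).unitGroup) {y : ClassT T}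
    (hy : ∀ h ∈ H', (show (LT T).G from h) • y = y)
    (e : toClass T ⟨f.1, f.2.1⟩ = nm (L := LT T) H H' y) :
    ∃ s : sUnits T₂ H, theta T T₂ H H' f = theta T T₂ H H' (thetaUnit hN (hle.trans hc.le) s) := by
  have hoH' : (LT T).IsOpen H' := ⟨N, hN, hle⟩
  obtain ⟨y₀, hy₀, rfl⟩ := exists_fixed_lift_eq H' hoH' y fun h hh => hy (show GQ from h) hh
  have hy₀' : y₀.1 ∈ fixedIdeles T H' := mem_fixedIdeles fun h hh => hy₀ (show (LT T).G from h) hh
  obtain ⟨x', hx', hu'⟩ := exists_adjust (H := H') hT hle hbig hy₀'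
  set y₁ : idele T := y₀ / ⟨diag x', (diag_mem_fixedIdeles hN hle hx').1⟩
  have hy₁ : y₁.1 ∈ fixedIdeles T H' := div_mem hy₀' (diag_mem_fixedIdeles hN hle hx')
  have hcls : toClass T y₁ = toClass T y₀ := (toClass_eq_iff y₁ y₀).mpr (by
    rw [div_div_cancel_left]
    exact inv_mem (diag_mem_classKer hN hle hx'))
  set W : idele T := (nm (L := LT T) H H' (Additive.ofMul y₁)).toMul
  have hW : W.1 ∈ fixedIdeles T H := nm_mem_fixedIdeles hN hle hy₁
  set w : idele T := ⟨f.1, f.2.1⟩ / W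
  have hk : w ∈ classKer T := (toClass_eq_iff _ _).mp (e.trans (by
    rw [← hcls, toClass_nm hoH']
    rfl))
  have hwfix : w.1 ∈ fixedIdeles T H := div_mem f.2 hW
  obtain ⟨x, hx, u, hufix, huU, hw⟩ := exists_decomp_classKer hN (hle.trans hc.le) hwfix hk
  obtain ⟨u₁, hu₁, -, hue⟩ := exists_unitsOut_norm hc hN hle hufix huU
  have hWunit : ∀ q ∉ T₂, ∀ g, W.1 (some q) g ∈ (placeAt q).unitGroup := fun q hq g => by
    rw [nm_idele_apply_range hc hy₁]
    exact prod_mem fun i _ => hu' q hq _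
  have hxu : ∀ q ∉ T₂, ∀ g : GQ, g • x ∈ (placeAt q).unitGroup := fun q hq g => by
    have h1 : g • x = f.1 (some q) g / W.1 (some q) g / u.1 (some q) g := by
      rw [eq_div_iff_mul_eq']
      exact (hw (some q) g).symm
    rw [h1]
    exact div_mem (div_mem (hfu q hq g) (hWunit q hq g)) (huU.2.2 q g)
  refine ⟨⟨x, mem_sUnits_of hx hxu⟩, ?_⟩
  have hprod : f = (⟨W.1, hW⟩ : fixedIdeles T H) * ⟨u.1, hufix⟩ *
      thetaUnit hN (hle.trans hc.le) ⟨x, mem_sUnits_of hx hxu⟩ := Subtype.ext (funext fun v => funext fun g => by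
    show f.1 v g = W.1 v g * u.1 v g * g • x
    rw [mul_assoc, mul_comm (u.1 v g), ← hw v g]
    exact (mul_div_cancel (W.1 v g) (f.1 v g)).symm)
  conv_lhs => rw [hprod]
  rw [map_mul, map_mul, theta_eq_one hc hN hle ⟨W.1, hW⟩ hy₁ fun v g => nm_idele_apply_range hc hy₁ v g,
    theta_eq_one hc hN hle ⟨u.1, hufix⟩ hu₁ fun v g => (hue v g).symm, one_mul, one_mul]

/-- The residues of the units away from `T₂`. -/
def sTheta (T₂ : Finset Nat.Primes) {N : Subgroup GQ} (hN : (LT T).IsLevel N) (hle : N ≤ H)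
    (H' : Subgroup GQ) :
    sUnits T₂ H →* Residues T₂ H H' :=
  (theta T T₂ H H').comp (thetaUnit hN hle)

/-- The norms of units away from `T₂`. -/
def sNorms (p : ℕ) (T₂ : Finset Nat.Primes) (H H' : Subgroup GQ) (t : GQ) : Subgroup (sUnits T₂ H) :=
  ((sUnits T₂ H').map (powProd p t)).subgroupOf (sUnits T₂ H)

theorem sNorms_le_ker (hc : CycP p H H' t) {N : Subgroup GQ} (hN : (LT T).IsLevel N)
    (hle : N ≤ H') : sNorms p T₂ H H' t ≤ (sTheta T₂ hN (hle.trans hc.le) H').ker := by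
  rintro s ⟨y, hy, e⟩
  exact theta_powProd hc hN hle hy.1 e

/-- The number of residues. -/
theorem card_residues (hp2 : p ≠ 2) (hc : CycP p H H' t) (hμ : FixesMu p H) (hT : T ⊆ T₂)
    {N : Subgroup GQ} (hN : (LT T).IsLevel N) (hle : N ≤ H') (hbig : IsBig T₂ N) :
    Nat.card (Residues T₂ H H') = (sNorms p T₂ H H' t).index * p ∧
      (sNorms p T₂ H H' t).index ≠ 0 := by
  classical
  have hN₂ := isLevel_of_subset hT hN
  haveI : H.FiniteIndex := finiteIndex_of_isOpen (L := LT T) ⟨N, hN, hle.trans hc.le⟩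
  haveI : H'.FiniteIndex := finiteIndex_of_isOpen (L := LT T) ⟨N, hN, hle⟩
  haveI := finite_nsIdx T₂ H H'
  haveI : Fintype (NSIdx T₂ H H') := Fintype.ofFinite _
  have hR : (sNorms p T₂ H H' t).index * p = p ^ Nat.card (NSIdx T₂ H H') :=
    norm_sUnits_relIndex hc hN₂ hle hbig hμ
      (card_sUnits_mod p T₂ hp2 H ⟨N, hN₂, hle.trans hc.le⟩ hμ)
      (card_sUnits_mod p T₂ hp2 H' ⟨N, hN₂, hle⟩ (fun h hh => hμ h (hc.le hh)))
      (sum_card_placesAbove hc hp2 T₂)
  refine ⟨?_, fun h => ?_⟩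
  · unfold Residues
    rw [hR, Nat.card_pi, Finset.prod_congr rfl fun c _ => card_locNormQuot hc hN hle c,
      Finset.prod_const, Finset.card_univ, ← Nat.card_eq_fintype_card]
  · rw [h, zero_mul] at hR
    exact pow_ne_zero _ hp.out.ne_zero hR.symm

/-- The class of a fixed idele, as a fixed class. -/
def fixedCl (T : Finset Nat.Primes) (H : Subgroup GQ) (f : fixedIdeles T H) : fixedClasses T H :=
  ⟨toClass T ⟨f.1, f.2.1⟩, fun h hh =>
    congrArg (toClass T) (fixedIdeles_smul (f := ⟨f.1, f.2.1⟩) f.2 (show GQ from h) hh)⟩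

theorem fixedCl_div (a b : fixedIdeles T H) :
    fixedCl T H (a / b) = fixedCl T H a - fixedCl T H b :=
  Subtype.ext ((toClassHom T).map_sub (Additive.ofMul ⟨a.1, a.2.1⟩) (Additive.ofMul ⟨b.1, b.2.1⟩))

theorem theta_mem_range (hc : CycP p H H' t) (hT : T ⊆ T₂) {N : Subgroup GQ}
    (hN : (LT T).IsLevel N) (hle : N ≤ H') (hbig : IsBig T₂ N) (f : fixedIdeles T H)
    (hfu : ∀ q ∉ T₂, ∀ g, f.1 (some q) g ∈ (placeAt q).unitGroup)
    (hf : fixedCl T H f ∈ classNorms T H H') :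
    theta T T₂ H H' f ∈ (sTheta T₂ hN (hle.trans hc.le) H').range := by
  obtain ⟨y, hy, e⟩ := exists_of_mem_classNorms (H := H) (H' := H') ⟨N, hN, hle⟩ hf
  obtain ⟨s, hs⟩ := exists_theta_eq_sUnit hc hT hN hle hbig f hfu
    (fun h hh => hy (show (LT T).G from h) hh) e
  exact ⟨s, hs.symm⟩

/-- The residues of units do not fill up, and fill up to index `p` when the norm index is `p`. -/
theorem residues_of_units (hp2 : p ≠ 2) (hc : CycP p H H' t) (hμ : FixesMu p H) (hT : T ⊆ T₂)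
    {N : Subgroup GQ} (hN : (LT T).IsLevel N) (hle : N ≤ H') (hbig : IsBig T₂ N) :
    ¬ classNorms T H H' = ⊤ ∧ (Nat.card (fixedClasses T H ⧸ classNorms T H H') = p →
      (sTheta T₂ hN (hle.trans hc.le) H').ker ≤ sNorms p T₂ H H' t) := by
  classical
  obtain ⟨hV, hR0⟩ := card_residues hp2 hc hμ hT hN hle hbig
  have hNS := sNorms_le_ker (T₂ := T₂) hc hN hle
  set φ := sTheta T₂ hN (hle.trans hc.le) H'
  have hrange : Nat.card φ.range = φ.ker.index := (Subgroup.index_ker φ).symm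
  have hkle : φ.ker.index ≤ (sNorms p T₂ H H' t).index :=
    Nat.le_of_dvd (Nat.pos_of_ne_zero hR0) (Subgroup.index_dvd_of_le hNS)
  have hlift := fun x => theta_surjective (T := T) (T₂ := T₂) (H := H) (H' := H') hN (hle.trans hc.le) x
  choose lift hlift hlift1 using hlift
  have hliftu : ∀ x, ∀ q ∉ T₂, ∀ g, (lift x).1 (some q) g ∈ (placeAt q).unitGroup := fun x q hq g => by
    rw [hlift1 x q hq g]
    exact one_mem _
  refine ⟨fun htop => ?_, fun hcard => ?_⟩
  · have hall : φ.range = ⊤ := eq_top_iff.mpr fun x _ => by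
      have h := theta_mem_range hc hT hN hle hbig (lift x) (hliftu x) (htop ▸ AddSubgroup.mem_top _)
      rwa [hlift] at h
    rw [hall, Subgroup.card_top, hV] at hrange
    rw [← hrange] at hkle
    exact absurd hkle (not_le.mpr (lt_mul_of_one_lt_right (Nat.pos_of_ne_zero hR0) hp.out.one_lt))
  haveI : Finite (fixedClasses T H ⧸ classNorms T H H') :=
    Nat.finite_of_card_ne_zero (hcard.trans_ne hp.out.ne_zero)
  have hindex : φ.range.index ≤ p := by
    rw [← hcard, Subgroup.index_eq_card]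
    refine Nat.card_le_card_of_injective
      (fun x => (fixedCl T H (lift x.out) : fixedClasses T H ⧸ classNorms T H H')) fun a b hab => ?_
    rw [← QuotientGroup.out_eq' a, ← QuotientGroup.out_eq' b, QuotientGroup.eq]
    have hm := QuotientAddGroup.eq.mp hab
    rw [neg_add_eq_sub, ← fixedCl_div] at hm
    have h := theta_mem_range hc hT hN hle hbig _ (fun q hq g => by
      show (lift b.out).1 (some q) g / (lift a.out).1 (some q) g ∈ _
      exact div_mem (hliftu _ q hq g) (hliftu _ q hq g)) hm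
    rw [map_div, hlift, hlift, div_eq_inv_mul] at h
    exact h
  have h1 := Subgroup.card_mul_index φ.range
  rw [hV, hrange] at h1
  have h2 : (sNorms p T₂ H H' t).index * p ≤ φ.ker.index * p := by
    rw [← h1]
    exact Nat.mul_le_mul_left _ hindex
  have h3 : φ.ker.index = (sNorms p T₂ H H' t).index :=
    le_antisymm hkle (Nat.le_of_mul_le_mul_right h2 hp.out.pos)
  have h4 := Subgroup.relIndex_mul_index hNS
  rw [h3] at h4
  exact Subgroup.relIndex_eq_one.mp (mul_right_cancel₀ hR0 (h4.trans (one_mul _).symm))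

/-- The value at the generator of a cocycle trivial on the subgroup. -/
theorem cocycle_value (hc : CycP p H H' t) (f : H → ClassT T)
    (hf : ∀ a b : H, f (a * b) = f a + (show (LT T).G from (a : GQ)) • f b)
    (hf0 : ∀ s : H, (s : GQ) ∈ H' → f s = 0) :
    (∀ s ∈ H', (show (LT T).G from s) • f ⟨t, hc.mem⟩ = f ⟨t, hc.mem⟩) ∧
      ∀ k : ℕ, f (⟨t, hc.mem⟩ ^ k) =
        ∑ i ∈ range k, (show (LT T).G from t) ^ i • f ⟨t, hc.mem⟩ := by
  refine ⟨fun s hs => ?_, fun k => ?_⟩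
  · have hs' : (t⁻¹ * s * t : GQ) ∈ H' := hc.conj_mem hc.mem hs
    have h1 := hf ⟨s, hc.le hs⟩ ⟨t, hc.mem⟩
    have h2 := hf ⟨t, hc.mem⟩ ⟨t⁻¹ * s * t, hc.le hs'⟩
    rw [hf0 ⟨t⁻¹ * s * t, hc.le hs'⟩ hs', smul_zero, add_zero] at h2
    rw [show (⟨s, hc.le hs⟩ : H) * ⟨t, hc.mem⟩ = ⟨t, hc.mem⟩ * ⟨t⁻¹ * s * t, hc.le hs'⟩ from
      Subtype.ext (by show s * t = t * (t⁻¹ * s * t); group), h2, hf0 ⟨s, hc.le hs⟩ hs, zero_add] at h1
    exact h1.symm
  · induction k with
    | zero => rw [pow_zero, hf0 1 H'.one_mem, range_zero, sum_empty]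
    | succ k ih => rw [pow_succ, hf, ih, sum_range_succ, SubgroupClass.coe_pow]; rfl

/-- A fixed class of norm zero is the class of an idele of norm one. -/
theorem exists_normOne_lift (hc : CycP p H H' t) (hT : T ⊆ T₂) {N : Subgroup GQ}
    (hN : (LT T).IsLevel N) (hle : N ≤ H') (hbig : IsBig T₂ N)
    (hker : (sTheta T₂ hN (hle.trans hc.le) H').ker ≤ sNorms p T₂ H H' t) (c : ClassT T)
    (hcfix : ∀ s ∈ H', (show (LT T).G from s) • c = c)
    (hnm : nm (L := LT T) H H' c = 0) :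
    ∃ y : idele T, y.1 ∈ fixedIdeles T H' ∧ toClass T y = c ∧
      ∀ v g, ∏ i ∈ range p, y.1 v (g * t ^ i) = 1 := by
  have hoH' : (LT T).IsOpen H' := ⟨N, hN, hle⟩
  obtain ⟨y₀, hy₀, rfl⟩ := exists_fixed_lift_eq H' hoH' c fun h hh => hcfix (show GQ from h) hh
  have hy₀' : y₀.1 ∈ fixedIdeles T H' := mem_fixedIdeles fun h hh => hy₀ (show (LT T).G from h) hh
  obtain ⟨x', hx', hu'⟩ := exists_adjust (H := H') hT hle hbig hy₀'
  let y₁ : idele T := y₀ / ⟨diag x', (diag_mem_fixedIdeles hN hle hx').1⟩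
  have hy₁ : y₁.1 ∈ fixedIdeles T H' := div_mem hy₀' (diag_mem_fixedIdeles hN hle hx')
  have hcls : toClass T y₁ = toClass T y₀ := (toClass_eq_iff y₁ y₀).mpr (by
    rw [show y₁ / y₀ = (⟨diag x', (diag_mem_fixedIdeles hN hle hx').1⟩ : idele T)⁻¹ from
      div_div_cancel_left _ _]
    exact inv_mem (diag_mem_classKer hN hle hx'))
  let W : idele T := (nm (L := LT T) H H' (Additive.ofMul y₁)).toMul
  have hW : W.1 ∈ fixedIdeles T H := nm_mem_fixedIdeles hN hle hy₁
  have hWk : W ∈ classKer T := toClass_eq_zero_iff.mp (by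
    rw [← hcls, toClass_nm hoH'] at hnm
    exact hnm)
  obtain ⟨x, hx, u, hufix, huU, hWx⟩ := exists_decomp_classKer hN (hle.trans hc.le) hW hWk
  obtain ⟨u₁, hu₁, hu₁U, hue⟩ := exists_unitsOut_norm hc hN hle hufix huU
  have hxu : ∀ q ∉ T₂, ∀ g : GQ, g • x ∈ (placeAt q).unitGroup := fun q hq g => by
    have h1 : g • x = W.1 (some q) g / u.1 (some q) g := by
      rw [eq_div_iff_mul_eq', hWx]
    rw [h1, nm_idele_apply_range hc hy₁]
    exact div_mem (prod_mem fun i _ => hu' q hq _) (huU.2.2 q g)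
  have hs : sTheta T₂ hN (hle.trans hc.le) H' ⟨x, mem_sUnits_of hx hxu⟩ = 1 := by
    have hprod : (⟨W.1, hW⟩ : fixedIdeles T H) =
        thetaUnit hN (hle.trans hc.le) (⟨x, mem_sUnits_of hx hxu⟩ : sUnits T₂ H) * ⟨u.1, hufix⟩ :=
      Subtype.ext (funext fun v => funext fun g => hWx v g)
    have h := congrArg (theta T T₂ H H') hprod
    rw [map_mul, theta_eq_one hc hN hle ⟨W.1, hW⟩ hy₁ fun v g => nm_idele_apply_range hc hy₁ v g,
      theta_eq_one hc hN hle ⟨u.1, hufix⟩ hu₁ fun v g => (hue v g).symm] at h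
    exact (h.trans (mul_one _)).symm
  obtain ⟨s', hs', hss'⟩ := hker hs
  let D : idele T := ⟨diag s', (diag_mem_fixedIdeles hN hle hs'.1).1⟩
  refine ⟨y₁ / (D * u₁), div_mem hy₁ (mul_mem (diag_mem_fixedIdeles hN hle hs'.1) hu₁),
    hcls ▸ (toClass_eq_iff _ y₁).mpr ?_, fun v g => ?_⟩
  · rw [div_div_cancel_left]
    exact inv_mem (mul_mem (diag_mem_classKer hN hle hs'.1) (unitsOut_mem_classKer hu₁U))
  · show ∏ i ∈ range p, y₁.1 v (g * t ^ i) / ((g * t ^ i) • s' * u₁.1 v (g * t ^ i)) = 1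
    rw [prod_div_distrib, prod_mul_distrib, hue, ← nm_idele_apply_range hc hy₁]
    refine div_eq_one.mpr ((hWx v g).trans ?_)
    congr 1
    calc g • x = g • powProd p t s' := by rw [hss']; rfl
      _ = _ := by
        rw [powProd_apply, smul_prod']
        exact prod_congr rfl fun i _ => (mul_smul g (t ^ i) s').symm

/-- The counting of residues and the consequences for the fixed classes. -/
theorem first_inequality_layer (hp2 : p ≠ 2) (hc : CycP p H H' t) (hμ : FixesMu p H)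
    (hT : T ⊆ T₂) {N : Subgroup GQ} (hN : (LT T).IsLevel N) (hle : N ≤ H') (hbig : IsBig T₂ N) :
    ¬ classNorms T H H' = ⊤ ∧
      (Nat.card (fixedClasses T H ⧸ classNorms T H H') = p →
        ∀ f : H → ClassT T, (∀ a b : H, f (a * b) = f a + (show (LT T).G from (a : GQ)) • f b) →
          (∀ s : H, (s : GQ) ∈ H' → f s = 0) →
            ∃ c : ClassT T, ∀ a : H, f a = (show (LT T).G from (a : GQ)) • c - c) := by
  obtain ⟨hne, hker⟩ := residues_of_units hp2 hc hμ hT hN hle hbig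
  refine ⟨hne, fun hcard f hf hf0 => ?_⟩
  obtain ⟨hxfix, hk⟩ := cocycle_value hc f hf hf0
  have hnm : nm (L := LT T) H H' (f ⟨t, hc.mem⟩) = 0 := by
    rw [CycP.nm_eq (L := LT T) hc hxfix, ← hk p]
    exact hf0 _ (by rw [SubgroupClass.coe_pow]; exact hc.pow_prime_mem)
  obtain ⟨y, hy, hycl, hy1⟩ := exists_normOne_lift hc hT hN hle hbig (hker hcard) _ hxfix hnm
  have hyfix : ∀ k ∈ H', (show (LT T).G from k) • Additive.ofMul y = Additive.ofMul y :=
    fun k hk => congrArg Additive.ofMul (fixedIdeles_smul hy k hk)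
  have hy0 : ∑ i ∈ range p, (show (LT T).G from t) ^ i • Additive.ofMul y = 0 := by
    rw [← CycP.nm_eq (L := LT T) hc hyfix]
    refine Additive.toMul.injective (Subtype.ext (funext fun v => funext fun g => ?_))
    rw [nm_idele_apply_range hc hy, hy1]
    rfl
  have hc' : @CycP (LT T).G (LT T).grp p H H' t := hc
  obtain ⟨F, hFt, hF, hFs, hF0⟩ :=
    CycP.exists_cocycle (M := Additive (idele T)) hc' hyfix hy0
  obtain ⟨b, hb⟩ := idele_h1_eq H ⟨N, hN, hle.trans hc.le⟩ F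
    ⟨⟨_, ⟨N, hN, rfl⟩, fun a s hs => hFs a s (hle (Subgroup.mem_subgroupOf.mp hs))⟩, hF⟩
  have hb' : ∀ a : H, F a = (show (LT T).G from (a : GQ)) • b - b := fun a =>
    (congrFun hb a).symm
  have hmap : ∀ a : H, toClassHom T (F a) =
      (show (LT T).G from (a : GQ)) • toClassHom T b - toClassHom T b := fun a => by
    rw [hb' a, map_sub]
    rfl
  refine ⟨toClassHom T b, fun a => ?_⟩
  rw [← hmap a]
  refine congrFun (CycP.cocycle_ext hc' f (fun a => toClassHom T (F a)) hf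
    (fun a a' => ?_) hf0 (fun k hk => ?_) ?_) a
  · show toClassHom T (F (a * a')) = _
    rw [hF a a', map_add]
    rfl
  · show toClassHom T (F k) = 0
    rw [hF0 k hk, map_zero]
  · show f ⟨t, hc.mem⟩ = toClassHom T (F ⟨t, hc.mem⟩)
    rw [hFt]
    exact hycl.symm

/-- The first inequality, with the vanishing of `H¹` in the case of equality. -/
theorem first_inequality (p : ℕ) [Fact p.Prime] (T : Finset Nat.Primes) (hp2 : p ≠ 2)
    (H H' : Subgroup (LT T).G) (hH' : (LT T).IsOpen H') (hle : H' ≤ H)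
    (hn : (H'.subgroupOf H).Normal) (hidx : (H'.subgroupOf H).index = p) (hμ : FixesMu p H) :
    ¬ classNorms T H H' = ⊤ ∧
      (Nat.card (fixedClasses T H ⧸ classNorms T H H') = p →
        ∀ f ∈ ((LT T).sub H).Z1 (ClassT T),
          (∀ h : ((LT T).sub H).G, h.1 ∈ H' → f h = 0) → f ∈ ((LT T).sub H).B1 (ClassT T)) := by
  obtain ⟨N, hN, hNH'⟩ := hH'
  obtain ⟨t, hc⟩ := exists_cycP hle hn hidx
  obtain ⟨T₂, hT, hbig⟩ := exists_isBig T N hN
  obtain ⟨h1, h2⟩ := first_inequality_layer (H := H) (H' := H') (t := t) hp2 hc hμ hT hN hNH'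
    (hbig T₂ (Finset.Subset.refl T₂))
  refine ⟨h1, fun hcard f hf hf0 => ?_⟩
  obtain ⟨c, e⟩ := h2 hcard f hf.2 hf0
  exact ⟨c, funext fun a => (e a).symm⟩

end Fermat.Agent.GD
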