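import Fermat.Agent.GD.Local
import Fermat.Agent.GD.Global.Basic.Ideles
import Fermat.Agent.GD.Global.Basic.Supported
import Fermat.Agent.GD.Global.SUnits.Big
import Fermat.Agent.GD.Global.SUnits.Count

/-!
# Ideles, units away from `T` and norms of classes (interface)
-/

set_option autoImplicit false

noncomputable section

namespace Fermat.Agent.GD

open Fermat.Agent.Galois (GQ)

local notation "ℚb" => AlgebraicClosure ℚ

variable (p : ℕ) [Fact p.Prime] (T : Finset Nat.Primes)

/-- `H¹` of the ideles vanishes. -/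
theorem idele_h1 (H : Subgroup (LT T).G) (hH : (LT T).IsOpen H) :
    ∀ f ∈ ((LT T).sub H).Z1 (Additive (idele T)), f ∈ ((LT T).sub H).B1 (Additive (idele T)) := by
  exact idele_h1_eq H hH

/-- The map `a ↦ g⁻¹ a g` from a decomposition group. -/
def conjHom (v : Place) (g : GQ) : (LD v).G →* (LT T).G :=
  (MulAut.conj g⁻¹).toMonoidHom.comp (decomp v).subtype

/-- A two-cocycle of ideles is a coboundary as soon as all its local components are. -/
theorem idele_h2_loc (H : Subgroup (LT T).G) (hH : (LT T).IsOpen H)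
    (z : ((LT T).sub H).Z2 (Additive (idele T)))
    (hz : ∀ (v : Place) (g : GQ), ((LD v).sub (H.comap (conjHom T v g))).IsB2 (Additive ℚbˣ)
      (fun y => Additive.ofMul
        ((z.1 (⟨conjHom T v g y.1.1, y.1.2⟩, ⟨conjHom T v g y.2.1, y.2.2⟩)).toMul.1 v g))) :
    ((LT T).sub H).IsB2 (Additive (idele T)) z.1 := by
  refine idele_h2_loc_eq H hH z fun v g => ?_
  obtain ⟨b, ⟨_, ⟨M, hM, rfl⟩, hbM⟩, hb⟩ := hz v g
  exact ⟨b, ⟨M, hM, fun d s hs => hbM d s (Subgroup.mem_subgroupOf.mpr hs)⟩,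
    fun d e => (congrFun hb (d, e)).symm⟩

/-- A local class is a component of a global cocycle supported at that place, for a large set of
primes. -/
theorem exists_supported_cocycle (v : Place) (z : (LD v).Z2 (Additive ℚbˣ)) :
    ∃ T' : Finset Nat.Primes, T ⊆ T' ∧ v ∈ placesOf T' ∧ ∃ w : (LT T').Z2 (Additive (idele T')),
      (∀ x, ∀ v' ≠ v, ∀ g, (w.1 x).toMul.1 v' g = 1) ∧
      (LD v).IsB2 (Additive ℚbˣ) (locCochain v (fun x => (w.1 x).toMul) - z.1) := by
  exact exists_supported_cocycle_eq T v z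

/-- A fixed class is the class of a fixed idele. -/
theorem exists_fixed_lift (H : Subgroup (LT T).G) (hH : (LT T).IsOpen H) (c : ClassT T)
    (hc : ∀ h ∈ H, h • c = c) :
    ∃ f : idele T, (∀ h ∈ H, h • f = f) ∧ toClass T f = c := by
  exact exists_fixed_lift_eq H hH c hc

/-- Units away from `T` modulo `p`-th powers. -/
theorem card_sUnits_mod (hp2 : p ≠ 2) (H : Subgroup (LT T).G) (hH : (LT T).IsOpen H)
    (hμ : FixesMu p H) :
    Nat.card (sUnits T H ⧸ powers p (sUnits T H)) =
      p ^ ∑ v ∈ placesOf T, Nat.card (PlacesAbove v H) := by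
  exact card_sUnits_mod_gen hH fun h hh μ hμp => Units.ext
    (hμ h hh (μ : ℚb) (by rw [← Units.val_pow_eq_pow_val, hμp, Units.val_one]))

/-- Units away from `T` modulo `p`-th powers as a module over a Galois group of order prime to
`p`. -/
theorem card_sUnits_hom (hp2 : p ≠ 2) (H N : Subgroup (LT T).G) (hN : (LT T).IsLevel N)
    (hle : N ≤ H) (hidx : ¬ p ∣ (N.subgroupOf H).index) (hμ : FixesMu p N)
    (M : Type) [AddCommGroup M] [Finite M] [DistribMulAction (LT T).G M]
    (hp : ∀ m : M, p • m = 0) (hMN : ∀ s ∈ N, ∀ m : M, s • m = m) :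
    Nat.card (HomModPowers p H (sUnits T N) M) *
        Nat.card {φ : M →+ ZMod p // ∀ h ∈ H, ∀ m, φ (h • m) = φ m} =
      Nat.card {φ : M →+ Additive ℚbˣ // ∀ h ∈ H, ∀ m, φ (h • m) = h • φ m} *
        ∏ v ∈ placesOf T, ∏ᶠ w : PlacesAbove v H,
          Nat.card {φ : M →+ ZMod p //
            ∀ h ∈ H, (Quotient.out w : GQ) * (show GQ from h) * (Quotient.out w : GQ)⁻¹ ∈ decomp v →
              ∀ m, φ (h • m) = φ m} := by
  haveI hn : N.Normal := (LT T).normal N hN
  haveI hf : N.FiniteIndex := (LT T).finiteIndex N hN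
  letI : DistribMulAction GQ M := ‹DistribMulAction (LT T).G M›
  exact card_sUnits_hom_gen ⟨N, hN, le_rfl⟩ M
    ⟨hle, hn.subgroupOf H,
      ⟨ne_zero_of_dvd_ne_zero hf.index_ne_zero (Subgroup.relIndex_dvd_index_of_normal N H)⟩,
      hidx, hp, hMN⟩
    fun h hh μ hμp => Units.ext
      (hμ h hh (μ : ℚb) (by rw [← Units.val_pow_eq_pow_val, hμp, Units.val_one]))

/-- The fixed classes. -/
def fixedClasses (H : Subgroup (LT T).G) : AddSubgroup (ClassT T) where
  carrier := {c | ∀ h ∈ H, h • c = c}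
  zero_mem' := fun h _ => smul_zero h
  add_mem' := fun hx hy h hh => by rw [smul_add, hx h hh, hy h hh]
  neg_mem' := fun hx h hh => by rw [smul_neg, hx h hh]

/-- The norms from a subgroup. -/
def classNorms (H H' : Subgroup (LT T).G) : AddSubgroup (fixedClasses T H) :=
  AddSubgroup.closure {c | ∃ y ∈ fixedClasses T H', (c : ClassT T) =
    ∑ᶠ s : H ⧸ H'.subgroupOf H, ((s.out : H) : (LT T).G) • y}

/-- Some finite set of primes kills the class groups below a level. -/
theorem exists_isBig (N : Subgroup (LT T).G) (hN : (LT T).IsLevel N) :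
    ∃ T' : Finset Nat.Primes, T ⊆ T' ∧ ∀ T'' : Finset Nat.Primes, T' ⊆ T'' → IsBig T'' N := by
  exact exists_isBig_eq hN

end Fermat.Agent.GD
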